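import Mathlib

/-!
# Row LT, tower T6, sub-leaf T6.15c3 (helper313): norm and trace of a finite field, automorphism form

OFF-MAIN.  Mathlib only.  `F` a finite field, `σ` a ring automorphism of prime order `l`
(`σ ^ l = 1`, `σ ≠ 1`).  Then every `σ`-fixed element is `∏_{j < l} σ^j y` for some `y`
(`exists_prod_pow_eq313`) and `∑_{j < l} σ^j w` for some `w` (`exists_sum_pow_eq313`).
Proof: `F` is Galois over the fixed field of `⟨σ⟩` with group `⟨σ⟩`
(`IsGaloisGroup.fixedPoints`), the norm of finite fields is surjective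
(`FiniteField.norm_surjective`), the trace of a separable extension is surjective.
-/

set_option autoImplicit false
set_option linter.style.haveILetI false
set_option linter.unusedSectionVars false
set_option linter.unusedVariables false

namespace Fermat.Agent.LT.T6.H313

section FinNorm

variable {F : Type} [Field F] [Finite F]

theorem finite_ringAut313 : Finite (F ≃+* F) :=
  Finite.of_injective (fun e : F ≃+* F => (e : F → F)) DFunLike.coe_injective

theorem orderOf_eq313 (σ : F ≃+* F) (l : ℕ) (hl : l.Prime) (hσl : ∀ y : F, (σ ^ l) y = y)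
    (hσ1 : ∃ y : F, σ y ≠ y) : orderOf σ = l := by
  haveI : Fact l.Prime := ⟨hl⟩
  refine orderOf_eq_prime (RingEquiv.ext hσl) ?_
  rintro rfl
  obtain ⟨y, hy⟩ := hσ1
  exact hy rfl

/-- Products and sums over the cyclic group `⟨σ⟩`, as products and sums over `range l`. -/
theorem prod_zpowers313 (σ : F ≃+* F) (l : ℕ) (hord : orderOf σ = l) (hl0 : 0 < l)
    [Fintype (Subgroup.zpowers σ)]
    {M : Type} [CommMonoid M] (f : (F ≃+* F) → M) :
    ∏ g : Subgroup.zpowers σ, f (g : F ≃+* F) = ∏ j ∈ Finset.range l, f (σ ^ j) := by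
  haveI : Finite (F ≃+* F) := finite_ringAut313
  have hfin : IsOfFinOrder σ := isOfFinOrder_of_finite σ
  subst hord
  rw [← Fin.prod_univ_eq_prod_range (α := M) (fun j => f (σ ^ j)) (orderOf σ)]
  refine (Fintype.prod_equiv (finEquivZPowers hfin) _ _ ?_).symm
  intro n
  rw [finEquivZPowers_apply]

theorem exists_prod_pow_eq313 (σ : F ≃+* F) (l : ℕ) (hl : l.Prime)
    (hσl : ∀ y : F, (σ ^ l) y = y) (hσ1 : ∃ y : F, σ y ≠ y) (c : F) (hc : σ c = c) :
    ∃ y : F, ∏ j ∈ Finset.range l, (σ ^ j) y = c := by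
  classical
  haveI : Finite (F ≃+* F) := finite_ringAut313
  have hord := orderOf_eq313 σ l hl hσl hσ1
  let G : Subgroup (F ≃+* F) := Subgroup.zpowers σ
  haveI : Fintype G := Fintype.ofFinite _
  let K := FixedPoints.subfield G F
  haveI : IsGaloisGroup G K F := IsGaloisGroup.fixedPoints G F
  haveI : IsGalois K F := IsGaloisGroup.isGalois G K F
  haveI : FiniteDimensional K F := IsGaloisGroup.finiteDimensional G K F
  have hcK : c ∈ K := by
    intro g
    obtain ⟨g, hg⟩ := g
    obtain ⟨n, rfl⟩ := Subgroup.mem_zpowers_iff.1 hg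
    change (σ ^ n) c = c
    have h1 : ∀ m : ℕ, (σ ^ m) c = c := by
      intro m
      induction m with
      | zero => simp
      | succ m ih => rw [pow_succ, RingAut.mul_apply, hc, ih]
    have h2 : ∀ m : ℕ, (σ ^ m)⁻¹ c = c := by
      intro m
      have := h1 m
      calc (σ ^ m)⁻¹ c = (σ ^ m)⁻¹ ((σ ^ m) c) := by rw [this]
        _ = c := by rw [← RingAut.mul_apply, inv_mul_cancel, RingAut.one_apply]
    rcases Int.eq_nat_or_neg n with ⟨m, rfl | rfl⟩
    · simpa using h1 m
    · simpa using h2 m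
  obtain ⟨y, hy⟩ := FiniteField.norm_surjective K F ⟨c, hcK⟩
  refine ⟨y, ?_⟩
  have h3 := Algebra.norm_eq_prod_automorphisms K y
  rw [hy] at h3
  have h4 : ∏ τ : F ≃ₐ[K] F, τ y = ∏ g : G, (g : F ≃+* F) y := by
    refine (Fintype.prod_equiv (IsGaloisGroup.mulEquivAlgEquiv G K F) _ _ ?_).symm
    intro g
    rfl
  rw [h4, prod_zpowers313 σ l hord hl.pos (fun τ => τ y)] at h3
  exact h3.symm

theorem exists_sum_pow_eq313 (σ : F ≃+* F) (l : ℕ) (hl : l.Prime)
    (hσl : ∀ y : F, (σ ^ l) y = y) (hσ1 : ∃ y : F, σ y ≠ y) (c : F) (hc : σ c = c) :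
    ∃ w : F, ∑ j ∈ Finset.range l, (σ ^ j) w = c := by
  classical
  haveI : Finite (F ≃+* F) := finite_ringAut313
  have hord := orderOf_eq313 σ l hl hσl hσ1
  let G : Subgroup (F ≃+* F) := Subgroup.zpowers σ
  haveI : Fintype G := Fintype.ofFinite _
  let K := FixedPoints.subfield G F
  haveI : IsGaloisGroup G K F := IsGaloisGroup.fixedPoints G F
  haveI : IsGalois K F := IsGaloisGroup.isGalois G K F
  haveI : FiniteDimensional K F := IsGaloisGroup.finiteDimensional G K F
  have hcK : c ∈ K := by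
    intro g
    obtain ⟨g, hg⟩ := g
    obtain ⟨n, rfl⟩ := Subgroup.mem_zpowers_iff.1 hg
    change (σ ^ n) c = c
    have h1 : ∀ m : ℕ, (σ ^ m) c = c := by
      intro m
      induction m with
      | zero => simp
      | succ m ih => rw [pow_succ, RingAut.mul_apply, hc, ih]
    have h2 : ∀ m : ℕ, (σ ^ m)⁻¹ c = c := by
      intro m
      have := h1 m
      calc (σ ^ m)⁻¹ c = (σ ^ m)⁻¹ ((σ ^ m) c) := by rw [this]
        _ = c := by rw [← RingAut.mul_apply, inv_mul_cancel, RingAut.one_apply]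
    rcases Int.eq_nat_or_neg n with ⟨m, rfl | rfl⟩
    · simpa using h1 m
    · simpa using h2 m
  obtain ⟨w, hw⟩ := Algebra.trace_surjective K F ⟨c, hcK⟩
  refine ⟨w, ?_⟩
  have h3 := trace_eq_sum_automorphisms (K := K) w
  rw [hw] at h3
  have h4 : ∑ τ : F ≃ₐ[K] F, τ w = ∑ g : G, (g : F ≃+* F) w := by
    refine (Fintype.sum_equiv (IsGaloisGroup.mulEquivAlgEquiv G K F) _ _ ?_).symm
    intro g
    rfl
  have h5 := prod_zpowers313 σ l hord hl.pos (M := Multiplicative F)
    (fun τ => Multiplicative.ofAdd (τ w))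
  have h6 : ∑ g : G, (g : F ≃+* F) w = ∑ j ∈ Finset.range l, (σ ^ j) w := by
    have := congrArg Multiplicative.toAdd h5
    simpa [toAdd_prod] using this
  rw [h4, h6] at h3
  exact h3.symm

end FinNorm

end Fermat.Agent.LT.T6.H313
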