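import Mathlib

/-!
# Row LT, tower T6, sub-leaf T6.15c3 (helper313): the frame

OFF-MAIN.  Mathlib only.

* `nrm313 σ n β = β · σ(β) ⋯ σ^{n-1}(β)` in a commutative monoid (recursion of `T6.twN`);
* `qMap313`, `qAut313`: functoriality of `QuadraticAlgebra R a b` (`X² = a + b X`) in `R`;
* `qEval313`: evaluation at a root of `X² - b X - a`.
-/

set_option autoImplicit false
set_option linter.style.haveILetI false
set_option linter.unusedSectionVars false
set_option linter.unusedVariables false

namespace Fermat.Agent.LT.T6.H313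

/-! ## The twisted norm in a commutative monoid -/

section Nrm

variable {M M' : Type*} [CommMonoid M] [CommMonoid M']

/-- `N_n β = β · σ(β) ⋯ σ^{n-1}(β)`, with the recursion of `T6.twN`. -/
def nrm313 (σ : M → M) : ℕ → M → M
  | 0, _ => 1
  | (n + 1), β => β * σ (nrm313 σ n β)

@[simp] theorem nrm313_zero (σ : M → M) (β : M) : nrm313 σ 0 β = 1 := rfl

theorem nrm313_succ (σ : M → M) (n : ℕ) (β : M) :
    nrm313 σ (n + 1) β = β * σ (nrm313 σ n β) := rfl

theorem nrm313_mul (σ : M → M) (hσ : ∀ x y, σ (x * y) = σ x * σ y) (n : ℕ) (β γ : M) :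
    nrm313 σ n (β * γ) = nrm313 σ n β * nrm313 σ n γ := by
  induction n with
  | zero => simp
  | succ n ih => rw [nrm313_succ, nrm313_succ, nrm313_succ, ih, hσ]; exact mul_mul_mul_comm _ _ _ _

theorem nrm313_map (φ : M → M') (hφ1 : φ 1 = 1) (hφ : ∀ x y, φ (x * y) = φ x * φ y)
    (σ : M → M) (σ' : M' → M') (h : ∀ x, φ (σ x) = σ' (φ x)) (n : ℕ) (β : M) :
    φ (nrm313 σ n β) = nrm313 σ' n (φ β) := by
  induction n with
  | zero => simpa using hφ1
  | succ n ih => rw [nrm313_succ, nrm313_succ, hφ, h, ih]

/-- The product form of the twisted norm. -/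
theorem nrm313_eq_prod (σ : M → M) (h1 : σ 1 = 1) (hσ : ∀ x y, σ (x * y) = σ x * σ y)
    (n : ℕ) (β : M) : nrm313 σ n β = ∏ j ∈ Finset.range n, σ^[j] β := by
  induction n with
  | zero => simp
  | succ n ih =>
    have hprod : ∀ (m : ℕ) (f : ℕ → M),
        σ (∏ j ∈ Finset.range m, f j) = ∏ j ∈ Finset.range m, σ (f j) := by
      intro m f
      induction m with
      | zero => simpa using h1
      | succ m ihm => rw [Finset.prod_range_succ, hσ, ihm, Finset.prod_range_succ]
    rw [nrm313_succ, ih, hprod, Finset.prod_range_succ', mul_comm]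
    simp [Function.iterate_succ_apply']

/-- The twisted norm of an element is fixed by `σ` when `σ^n = 1`. -/
theorem nrm313_fixed (σ : M → M) (h1 : σ 1 = 1) (hσ : ∀ x y, σ (x * y) = σ x * σ y)
    (n : ℕ) (β : M) (hn : σ^[n] β = β) : σ (nrm313 σ n β) = nrm313 σ n β := by
  have hprod : ∀ (m : ℕ) (f : ℕ → M),
      σ (∏ j ∈ Finset.range m, f j) = ∏ j ∈ Finset.range m, σ (f j) := by
    intro m f
    induction m with
    | zero => simpa using h1
    | succ m ihm => rw [Finset.prod_range_succ, hσ, ihm, Finset.prod_range_succ]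
  rw [nrm313_eq_prod σ h1 hσ, hprod]
  cases n with
  | zero => simp
  | succ m =>
    rw [Finset.prod_range_succ, Finset.prod_range_succ']
    simp only [Function.iterate_zero, id_eq]
    rw [← Function.iterate_succ_apply' σ m β, hn]
    refine congrArg (· * β) ?_
    refine Finset.prod_congr rfl fun j _ => ?_
    rw [Function.iterate_succ_apply']

end Nrm

/-! ## Functoriality of the quadratic algebra -/

section QMap

variable {R S : Type*} [CommRing R] [CommRing S]

/-- The map `QuadraticAlgebra R a b → QuadraticAlgebra S a' b'` induced by a ring homomorphism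
`φ : R → S` with `φ a = a'`, `φ b = b'`. -/
def qMap313 (φ : R →+* S) {a b : R} {a' b' : S} (ha : φ a = a') (hb : φ b = b') :
    QuadraticAlgebra R a b →+* QuadraticAlgebra S a' b' where
  toFun z := ⟨φ z.re, φ z.im⟩
  map_one' := by
    ext
    · exact map_one φ
    · exact map_zero φ
  map_mul' x y := by subst ha hb; ext <;> simp
  map_zero' := by
    ext
    · exact map_zero φ
    · exact map_zero φ
  map_add' x y := by ext <;> simp

@[simp] theorem qMap313_re (φ : R →+* S) {a b : R} {a' b' : S} (ha : φ a = a') (hb : φ b = b')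
    (z : QuadraticAlgebra R a b) : (qMap313 φ ha hb z).re = φ z.re := rfl

@[simp] theorem qMap313_im (φ : R →+* S) {a b : R} {a' b' : S} (ha : φ a = a') (hb : φ b = b')
    (z : QuadraticAlgebra R a b) : (qMap313 φ ha hb z).im = φ z.im := rfl

/-- The automorphism of `QuadraticAlgebra R a b` induced by an automorphism of `R` fixing `a`
and `b`. -/
def qAut313 (σ : R ≃+* R) {a b : R} (ha : σ a = a) (hb : σ b = b) :
    QuadraticAlgebra R a b ≃+* QuadraticAlgebra R a b where
  toFun z := ⟨σ z.re, σ z.im⟩
  invFun z := ⟨σ.symm z.re, σ.symm z.im⟩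
  left_inv z := by ext <;> simp
  right_inv z := by ext <;> simp
  map_mul' x y := by
    ext
    · simp [ha]
    · simp [hb]
  map_add' x y := by ext <;> simp

@[simp] theorem qAut313_re (σ : R ≃+* R) {a b : R} (ha : σ a = a) (hb : σ b = b)
    (z : QuadraticAlgebra R a b) : (qAut313 σ ha hb z).re = σ z.re := rfl

@[simp] theorem qAut313_im (σ : R ≃+* R) {a b : R} (ha : σ a = a) (hb : σ b = b)
    (z : QuadraticAlgebra R a b) : (qAut313 σ ha hb z).im = σ z.im := rfl

theorem qAut313_pow_re (σ : R ≃+* R) {a b : R} (ha : σ a = a) (hb : σ b = b) (n : ℕ)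
    (z : QuadraticAlgebra R a b) : ((qAut313 σ ha hb ^ n) z).re = (σ ^ n) z.re := by
  induction n generalizing z with
  | zero => simp
  | succ n ih => rw [pow_succ, pow_succ, RingAut.mul_apply, RingAut.mul_apply, ih]; rfl

theorem qAut313_pow_im (σ : R ≃+* R) {a b : R} (ha : σ a = a) (hb : σ b = b) (n : ℕ)
    (z : QuadraticAlgebra R a b) : ((qAut313 σ ha hb ^ n) z).im = (σ ^ n) z.im := by
  induction n generalizing z with
  | zero => simp
  | succ n ih => rw [pow_succ, pow_succ, RingAut.mul_apply, RingAut.mul_apply, ih]; rfl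

theorem qAut313_omega (σ : R ≃+* R) {a b : R} (ha : σ a = a) (hb : σ b = b) :
    qAut313 σ ha hb (QuadraticAlgebra.omega : QuadraticAlgebra R a b) = QuadraticAlgebra.omega := by
  ext <;> simp

theorem qAut313_C (σ : R ≃+* R) {a b : R} (ha : σ a = a) (hb : σ b = b) (r : R) :
    qAut313 σ ha hb (QuadraticAlgebra.C r : QuadraticAlgebra R a b) = QuadraticAlgebra.C (σ r) := by
  ext <;> simp

/-- Evaluation at a root `r` of `X² = a + b X`. -/
def qEval313 {a b : R} (r : R) (hr : r * r = a + b * r) : QuadraticAlgebra R a b →+* R where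
  toFun z := z.re + z.im * r
  map_one' := by
    show (1 : R) + 0 * r = 1
    ring
  map_mul' x y := by
    simp only [QuadraticAlgebra.re_mul, QuadraticAlgebra.im_mul]
    linear_combination (-(x.im * y.im)) * hr
  map_zero' := by
    show (0 : R) + 0 * r = 0
    ring
  map_add' x y := by simp only [QuadraticAlgebra.re_add, QuadraticAlgebra.im_add]; ring

@[simp] theorem qEval313_apply {a b : R} (r : R) (hr : r * r = a + b * r)
    (z : QuadraticAlgebra R a b) : qEval313 r hr z = z.re + z.im * r := rfl

/-- Iterates of a ring automorphism are its powers. -/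
theorem iterate_eq_pow313 (σ : R ≃+* R) (n : ℕ) (x : R) : (⇑σ)^[n] x = (σ ^ n) x := by
  induction n with
  | zero => simp
  | succ n ih => rw [Function.iterate_succ_apply', ih, pow_succ', RingAut.mul_apply]

/-- The twisted norm of a ring automorphism, product form with powers. -/
theorem nrm313_ringEquiv (σ : R ≃+* R) (n : ℕ) (x : R) :
    nrm313 (⇑σ) n x = ∏ j ∈ Finset.range n, (σ ^ j) x := by
  rw [nrm313_eq_prod (⇑σ) (map_one σ) (map_mul σ)]
  exact Finset.prod_congr rfl fun j _ => iterate_eq_pow313 σ j x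

end QMap

end Fermat.Agent.LT.T6.H313
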