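import Mathlib
import Fermat.Agent.LT.T6.Spec
import Fermat.Agent.LT.T6.H313.FinNorm
import Fermat.Agent.LT.T6.H313.QuadFrame

/-!
# Row LT, tower T6, sub-leaf T6.15c3 (helper313): the residue field of an abstract local field

OFF-MAIN.  Vocabulary: `T6/Spec.lean` (`Γ₀`, `IsLocalField`, `IsLocalExt`).

* `sO313`: the automorphism of the valuation ring induced by an automorphism preserving the
  valuation; `sBar313`: the induced automorphism of the residue field;
* `finite_residue313`, `card_residue_ge313`: the residue field of a local field with `q`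
  representatives is finite, with at least `q` elements;
* `exists_limit313`: limits of `ϖ`-adically Cauchy sequences in a complete valued field.
-/

set_option autoImplicit false
set_option linter.style.haveILetI false
set_option linter.unusedSectionVars false
set_option linter.unusedVariables false

open Fermat.Agent.LT.T6

noncomputable section

namespace Fermat.Agent.LT.T6.H313

/-! ## The value group `ℤᵐ⁰` -/

theorem le_exp_of_lt_one313 {x : Γ₀} (h : x < 1) : x ≤ WithZero.exp (-1 : ℤ) := by
  rcases eq_or_ne x 0 with rfl | hx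
  · exact zero_le
  · rw [← WithZero.exp_log hx] at h ⊢
    rw [← WithZero.exp_zero, WithZero.exp_lt_exp] at h
    rw [WithZero.exp_le_exp]
    omega

theorem exp_neg_one_lt_one313 : (WithZero.exp (-1 : ℤ) : Γ₀) < 1 := by
  rw [← WithZero.exp_zero, WithZero.exp_lt_exp]
  omega

theorem exp_neg_nat_le_one313 (n : ℕ) : (WithZero.exp (-(n : ℤ)) : Γ₀) ≤ 1 := by
  rw [← WithZero.exp_zero, WithZero.exp_le_exp]
  omega

theorem exp_neg_mul313 (m n : ℕ) :
    (WithZero.exp (-(m : ℤ)) : Γ₀) * WithZero.exp (-(n : ℤ)) = WithZero.exp (-((m + n : ℕ) : ℤ)) := by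
  rw [← WithZero.exp_add]
  congr 1
  push_cast
  ring

theorem exp_neg_mono313 {m n : ℕ} (h : m ≤ n) :
    (WithZero.exp (-(n : ℤ)) : Γ₀) ≤ WithZero.exp (-(m : ℤ)) := by
  rw [WithZero.exp_le_exp]
  omega

/-! ## The valuation ring and the residue field -/

section Residue

variable {K : Type} [Field K] [Valued K Γ₀]

/-- The residue field. -/
abbrev Res313 (K : Type) [Field K] [Valued K Γ₀] : Type :=
  IsLocalRing.ResidueField (Valued.integer K)

/-- The residue map. -/
abbrev res313 (K : Type) [Field K] [Valued K Γ₀] : Valued.integer K →+* Res313 K :=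
  IsLocalRing.residue (Valued.integer K)

theorem res313_eq_zero_iff (y : Valued.integer K) : res313 K y = 0 ↔ Valued.v (y : K) < 1 := by
  rw [IsLocalRing.residue_eq_zero_iff, IsLocalRing.mem_maximalIdeal, mem_nonunits_iff,
    Valuation.Integer.not_isUnit_iff_valuation_lt_one]

theorem res313_eq_iff (y z : Valued.integer K) :
    res313 K y = res313 K z ↔ Valued.v ((y : K) - z) < 1 := by
  rw [← sub_eq_zero, ← map_sub, res313_eq_zero_iff]
  rfl

theorem res313_surjective : Function.Surjective (res313 K) :=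
  IsLocalRing.residue_surjective

/-- The residue field of a local field is finite. -/
theorem finite_residue313 {q : ℕ} (hK : IsLocalField K q) : Finite (Res313 K) := by
  classical
  obtain ⟨T, -, hint, -, hcov⟩ := hK.residue
  let g : {x // x ∈ T} → Res313 K := fun x => res313 K ⟨x.1, hint x.1 x.2⟩
  refine Finite.of_surjective g ?_
  intro yb
  obtain ⟨y, rfl⟩ := res313_surjective yb
  obtain ⟨x, hxT, hx⟩ := hcov y.1 y.2
  refine ⟨⟨x, hxT⟩, ?_⟩
  rw [res313_eq_iff]
  have : Valued.v (x - (y : K)) = Valued.v ((y : K) - x) := Valuation.map_sub_swap _ _ _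
  rw [this]
  exact hx

/-- The residue field of a local field with `q` representatives has at least `q` elements. -/
theorem card_residue_ge313 {q : ℕ} (hK : IsLocalField K q) : q ≤ Nat.card (Res313 K) := by
  classical
  haveI := finite_residue313 hK
  obtain ⟨T, hcard, hint, hdiff, -⟩ := hK.residue
  let g : {x // x ∈ T} → Res313 K := fun x => res313 K ⟨x.1, hint x.1 x.2⟩
  have hg : Function.Injective g := by
    intro x y hxy
    by_contra hne
    have h1 : (x : K) ≠ y := fun h => hne (Subtype.ext h)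
    have h2 := hdiff x.1 x.2 y.1 y.2 h1
    have h3 : Valued.v ((x : K) - y) < 1 := (res313_eq_iff _ _).1 hxy
    rw [h2] at h3
    exact lt_irrefl _ h3
  have := Nat.card_le_card_of_injective g hg
  rwa [Nat.card_eq_fintype_card, Fintype.card_coe, hcard] at this

/-- The set of residues of a set of representatives of `k` under a valuation preserving map. -/
theorem exists_residue_image313 {k : Type} [Field k] [Valued k Γ₀] {q : ℕ}
    (hk : IsLocalField k q) (i : k →+* K) (hi : ∀ x : k, Valued.v (i x) = Valued.v x) :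
    ∃ S : Finset (Res313 K), S.card ≤ q ∧ (0 : Res313 K) ∈ S ∧
      ∀ (x : k) (hx : Valued.v (i x) ≤ 1), res313 K ⟨i x, hx⟩ ∈ S := by
  classical
  obtain ⟨T, hcard, hint, -, hcov⟩ := hk.residue
  let ρ : k → Res313 K := fun x =>
    if h : Valued.v (i x) ≤ 1 then res313 K ⟨i x, h⟩ else 0
  have hρ : ∀ (x : k) (hx : Valued.v (i x) ≤ 1), res313 K ⟨i x, hx⟩ ∈ T.image ρ := by
    intro x hx
    have hx1 : Valued.v x ≤ 1 := by rwa [hi] at hx
    obtain ⟨x₀, hx₀T, hx₀⟩ := hcov x hx1
    have hx₀1 : Valued.v (i x₀) ≤ 1 := by rw [hi]; exact hint x₀ hx₀T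
    refine Finset.mem_image.2 ⟨x₀, hx₀T, ?_⟩
    have : ρ x₀ = res313 K ⟨i x₀, hx₀1⟩ := dif_pos hx₀1
    rw [this, res313_eq_iff]
    show Valued.v (i x₀ - i x) < 1
    rw [← map_sub, hi, Valuation.map_sub_swap]
    exact hx₀
  refine ⟨T.image ρ, ?_, ?_, hρ⟩
  · exact Finset.card_image_le.trans hcard.le
  · have h0 : Valued.v (i 0) ≤ 1 := by simp
    have := hρ 0 h0
    have h2 : res313 K ⟨i 0, h0⟩ = 0 := by
      rw [res313_eq_zero_iff]
      simp
    rwa [h2] at this

/-- A local field has at least two residue classes. -/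
theorem two_le_card313 {q : ℕ} (hK : IsLocalField K q) : 2 ≤ q := by
  classical
  obtain ⟨T, hcard, hint, hdiff, hcov⟩ := hK.residue
  obtain ⟨x₀, hx₀T, hx₀⟩ := hcov 0 (by simp)
  obtain ⟨x₁, hx₁T, hx₁⟩ := hcov 1 (by simp)
  have hne : x₀ ≠ x₁ := by
    rintro rfl
    have h1 : Valued.v ((1 : K) - 0) ≤ max (Valued.v ((1 : K) - x₀)) (Valued.v (x₀ - 0)) := by
      have := Valuation.map_add Valued.v ((1 : K) - x₀) (x₀ - 0)
      simpa using this
    have h2 : Valued.v (x₀ - 0) < 1 := by rw [Valuation.map_sub_swap]; exact hx₀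
    have h3 : Valued.v ((1 : K) - 0) < 1 := lt_of_le_of_lt h1 (max_lt hx₁ h2)
    simp at h3
  rw [← hcard]
  exact Finset.one_lt_card.2 ⟨x₀, hx₀T, x₁, hx₁T, hne⟩

end Residue

end Fermat.Agent.LT.T6.H313

end
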