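import Mathlib
import Fermat.Agent.LT.T6.Spec
import Fermat.Agent.LT.T6.H313.LocalBasic

/-!
# Row LT, tower T6, sub-leaf T6.15c3 (helper313): the filtration of the quadratic algebra

OFF-MAIN.  `K` a field with a valuation in `ℤᵐ⁰`, `a, b` integral, `Q = K[X]/(X² - bX - a)`.
`InJ313 n z` : both coordinates of `z ∈ Q` have valuation `≤ exp (-n)`.  `J 0` is a subring,
`J m · J n ⊆ J (m + n)`, the `J n` are stable under a valuation preserving automorphism, and the
twisted norm preserves congruences modulo `J n`.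
-/

set_option autoImplicit false
set_option linter.style.haveILetI false
set_option linter.unusedSectionVars false
set_option linter.unusedVariables false

open Fermat.Agent.LT.T6

noncomputable section

namespace Fermat.Agent.LT.T6.H313

section J

variable {K : Type} [Field K] [Valued K Γ₀] {a b : K}

/-- Both coordinates have valuation `≤ exp (-n)`. -/
def InJ313 (n : ℕ) (z : QuadraticAlgebra K a b) : Prop :=
  Valued.v z.re ≤ WithZero.exp (-(n : ℤ)) ∧ Valued.v z.im ≤ WithZero.exp (-(n : ℤ))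

theorem inJ313_zero_iff (z : QuadraticAlgebra K a b) :
    InJ313 0 z ↔ Valued.v z.re ≤ 1 ∧ Valued.v z.im ≤ 1 := by
  unfold InJ313
  simp

theorem InJ313.mono {m n : ℕ} (h : m ≤ n) {z : QuadraticAlgebra K a b} (hz : InJ313 n z) :
    InJ313 m z :=
  ⟨hz.1.trans (exp_neg_mono313 h), hz.2.trans (exp_neg_mono313 h)⟩

theorem InJ313.zero (n : ℕ) : InJ313 n (0 : QuadraticAlgebra K a b) := by
  constructor
  · show Valued.v (0 : K) ≤ _
    rw [map_zero]; exact zero_le
  · show Valued.v (0 : K) ≤ _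
    rw [map_zero]; exact zero_le

theorem InJ313.one : InJ313 0 (1 : QuadraticAlgebra K a b) := by
  rw [inJ313_zero_iff]
  constructor
  · show Valued.v (1 : K) ≤ 1
    rw [map_one]
  · show Valued.v (0 : K) ≤ 1
    rw [map_zero]; exact zero_le

theorem InJ313.omega : InJ313 0 (QuadraticAlgebra.omega : QuadraticAlgebra K a b) := by
  rw [inJ313_zero_iff]
  constructor
  · show Valued.v (0 : K) ≤ 1
    rw [map_zero]; exact zero_le
  · show Valued.v (1 : K) ≤ 1
    rw [map_one]

theorem InJ313.C {x : K} (hx : Valued.v x ≤ 1) :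
    InJ313 0 (QuadraticAlgebra.C x : QuadraticAlgebra K a b) := by
  rw [inJ313_zero_iff]
  constructor
  · exact hx
  · show Valued.v (0 : K) ≤ 1
    rw [map_zero]; exact zero_le

theorem InJ313.add {n : ℕ} {z w : QuadraticAlgebra K a b} (hz : InJ313 n z) (hw : InJ313 n w) :
    InJ313 n (z + w) :=
  ⟨(Valuation.map_add _ _ _).trans (max_le hz.1 hw.1),
    (Valuation.map_add _ _ _).trans (max_le hz.2 hw.2)⟩

theorem InJ313.neg {n : ℕ} {z : QuadraticAlgebra K a b} (hz : InJ313 n z) : InJ313 n (-z) := by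
  constructor
  · show Valued.v (-z.re) ≤ _
    rw [Valuation.map_neg]; exact hz.1
  · show Valued.v (-z.im) ≤ _
    rw [Valuation.map_neg]; exact hz.2

theorem InJ313.sub {n : ℕ} {z w : QuadraticAlgebra K a b} (hz : InJ313 n z) (hw : InJ313 n w) :
    InJ313 n (z - w) := by
  rw [sub_eq_add_neg]
  exact hz.add hw.neg

theorem InJ313.mul (hav : Valued.v a ≤ 1) (hbv : Valued.v b ≤ 1) {m n : ℕ}
    {z w : QuadraticAlgebra K a b} (hz : InJ313 m z) (hw : InJ313 n w) : InJ313 (m + n) (z * w) := by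
  have e : (WithZero.exp (-(m : ℤ)) : Γ₀) * WithZero.exp (-(n : ℤ))
      = WithZero.exp (-((m + n : ℕ) : ℤ)) := exp_neg_mul313 m n
  have key : ∀ x y : K, Valued.v x ≤ WithZero.exp (-(m : ℤ)) →
      Valued.v y ≤ WithZero.exp (-(n : ℤ)) → Valued.v (x * y) ≤ WithZero.exp (-((m + n : ℕ) : ℤ)) := by
    intro x y hx hy
    rw [map_mul, ← e]
    exact mul_le_mul' hx hy
  have key2 : ∀ c x y : K, Valued.v c ≤ 1 → Valued.v x ≤ WithZero.exp (-(m : ℤ)) →
      Valued.v y ≤ WithZero.exp (-(n : ℤ)) →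
      Valued.v (c * x * y) ≤ WithZero.exp (-((m + n : ℕ) : ℤ)) := by
    intro c x y hc hx hy
    rw [mul_assoc, map_mul]
    calc Valued.v c * Valued.v (x * y) ≤ 1 * WithZero.exp (-((m + n : ℕ) : ℤ)) :=
          mul_le_mul' hc (key x y hx hy)
      _ = _ := one_mul _
  constructor
  · rw [QuadraticAlgebra.re_mul]
    exact (Valuation.map_add _ _ _).trans (max_le (key _ _ hz.1 hw.1) (key2 _ _ _ hav hz.2 hw.2))
  · rw [QuadraticAlgebra.im_mul]
    refine (Valuation.map_add _ _ _).trans (max_le ?_ (key2 _ _ _ hbv hz.2 hw.2))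
    refine (Valuation.map_add _ _ _).trans (max_le (key _ _ hz.1 hw.2) ?_)
    have := key _ _ hz.2 hw.1
    exact this

theorem InJ313.mul_left (hav : Valued.v a ≤ 1) (hbv : Valued.v b ≤ 1) {n : ℕ}
    {z w : QuadraticAlgebra K a b} (hz : InJ313 0 z) (hw : InJ313 n w) : InJ313 n (z * w) := by
  have := InJ313.mul hav hbv hz hw
  rwa [zero_add] at this

theorem InJ313.mul_right (hav : Valued.v a ≤ 1) (hbv : Valued.v b ≤ 1) {n : ℕ}
    {z w : QuadraticAlgebra K a b} (hz : InJ313 n z) (hw : InJ313 0 w) : InJ313 n (z * w) := by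
  have := InJ313.mul hav hbv hz hw
  rwa [add_zero] at this

theorem InJ313.aut (s : K ≃+* K) (hs : ∀ y : K, Valued.v (s y) = Valued.v y) (ha : s a = a)
    (hb : s b = b) {n : ℕ} {z : QuadraticAlgebra K a b} (hz : InJ313 n z) :
    InJ313 n (qAut313 s ha hb z) := by
  constructor
  · rw [qAut313_re, hs]; exact hz.1
  · rw [qAut313_im, hs]; exact hz.2

theorem InJ313.nrm (hav : Valued.v a ≤ 1) (hbv : Valued.v b ≤ 1) (s : K ≃+* K)
    (hs : ∀ y : K, Valued.v (s y) = Valued.v y) (ha : s a = a) (hb : s b = b)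
    {z : QuadraticAlgebra K a b} (hz : InJ313 0 z) (m : ℕ) :
    InJ313 0 (nrm313 (⇑(qAut313 s ha hb)) m z) := by
  induction m with
  | zero => exact InJ313.one
  | succ m ih =>
    rw [nrm313_succ]
    exact InJ313.mul_left hav hbv hz (InJ313.aut s hs ha hb ih)

/-- The twisted norm preserves congruences. -/
theorem InJ313.nrm_sub (hav : Valued.v a ≤ 1) (hbv : Valued.v b ≤ 1) (s : K ≃+* K)
    (hs : ∀ y : K, Valued.v (s y) = Valued.v y) (ha : s a = a) (hb : s b = b) {n : ℕ}
    {z w : QuadraticAlgebra K a b} (hz : InJ313 0 z) (hw : InJ313 0 w) (hzw : InJ313 n (z - w))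
    (m : ℕ) :
    InJ313 n (nrm313 (⇑(qAut313 s ha hb)) m z - nrm313 (⇑(qAut313 s ha hb)) m w) := by
  induction m with
  | zero =>
    rw [nrm313_zero, nrm313_zero, sub_self]
    exact InJ313.zero n
  | succ m ih =>
    rw [nrm313_succ, nrm313_succ]
    set σ := qAut313 s ha hb with hσ
    have h1 : z * σ (nrm313 (⇑σ) m z) - w * σ (nrm313 (⇑σ) m w)
        = (z - w) * σ (nrm313 (⇑σ) m z) + w * σ (nrm313 (⇑σ) m z - nrm313 (⇑σ) m w) := by
      rw [map_sub]; ring
    rw [h1]
    refine InJ313.add ?_ ?_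
    · exact InJ313.mul_right hav hbv hzw (InJ313.aut s hs ha hb (InJ313.nrm hav hbv s hs ha hb hz m))
    · exact InJ313.mul_left hav hbv hw (InJ313.aut s hs ha hb ih)

/-- An element of all the `J n` is zero. -/
theorem eq_zero_of_forall_inJ313 (z : QuadraticAlgebra K a b) (hz : ∀ n : ℕ, InJ313 n z) :
    z = 0 := by
  have key : ∀ x : K, (∀ n : ℕ, Valued.v x ≤ WithZero.exp (-(n : ℤ))) → x = 0 := by
    intro x hx
    by_contra hx0
    have hv0 : Valued.v x ≠ 0 := (Valuation.ne_zero_iff _).2 hx0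
    obtain ⟨c, hc⟩ : ∃ c : ℤ, Valued.v x = WithZero.exp c :=
      ⟨_, (WithZero.exp_log hv0).symm⟩
    have h1 := hx (1 - c).toNat
    rw [hc, WithZero.exp_le_exp] at h1
    omega
  ext
  · exact key _ fun n => (hz n).1
  · exact key _ fun n => (hz n).2

end J

/-- Dependent choice along `ℕ`. -/
theorem exists_seq313 {X : Type*} (P : ℕ → X → Prop) (R : ℕ → X → X → Prop) (x₀ : X)
    (h0 : P 0 x₀) (hstep : ∀ n x, P n x → ∃ y, P (n + 1) y ∧ R n x y) :
    ∃ f : ℕ → X, ∀ n, P n (f n) ∧ R n (f n) (f (n + 1)) := by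
  classical
  let F : (n : ℕ) → {x // P n x} := fun n =>
    Nat.rec (motive := fun n => {x // P n x}) ⟨x₀, h0⟩
      (fun n x => ⟨Classical.choose (hstep n x.1 x.2), (Classical.choose_spec (hstep n x.1 x.2)).1⟩) n
  refine ⟨fun n => (F n).1, fun n => ⟨(F n).2, ?_⟩⟩
  exact (Classical.choose_spec (hstep n (F n).1 (F n).2)).2

end Fermat.Agent.LT.T6.H313

end
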