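import Mathlib
import Fermat.Agent.LT.T6.Spec
import Fermat.Agent.LT.T6.H313.LocalBasic

/-!
# Row LT, tower T6, sub-leaf T6.15c3 (helper313): limits in a complete valued field

OFF-MAIN.  `exists_limit313`: in a complete field with a valuation in `ℤᵐ⁰` and a uniformiser,
a sequence with `v (a (n+1) - a n) ≤ exp (-n)` has a limit `L` with `v (L - a n) ≤ exp (-n)`.
-/

set_option autoImplicit false
set_option linter.style.haveILetI false
set_option linter.unusedSectionVars false
set_option linter.unusedVariables false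

open Fermat.Agent.LT.T6 Filter Topology

noncomputable section

namespace Fermat.Agent.LT.T6.H313

section Lim

variable {K : Type} [Field K] [Valued K Γ₀]

theorem val_pow_unif313 (ϖ : K) (hϖ : Valued.v ϖ = WithZero.exp (-1 : ℤ)) (n : ℕ) :
    Valued.v (ϖ ^ n) = WithZero.exp (-(n : ℤ)) := by
  rw [map_pow, hϖ, ← WithZero.exp_nsmul]
  congr 1
  simp

theorem val_sub_le_of_step313 (a : ℕ → K)
    (ha : ∀ n, Valued.v (a (n + 1) - a n) ≤ WithZero.exp (-(n : ℤ))) (n m : ℕ) (h : n ≤ m) :
    Valued.v (a m - a n) ≤ WithZero.exp (-(n : ℤ)) := by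
  induction m, h using Nat.le_induction with
  | base => simp
  | succ m hm ih =>
    have h1 : a (m + 1) - a n = (a (m + 1) - a m) + (a m - a n) := by ring
    rw [h1]
    refine (Valuation.map_add _ _ _).trans (max_le ?_ ih)
    exact (ha m).trans (exp_neg_mono313 hm)

theorem exists_limit313 [CompleteSpace K] (ϖ : K) (hϖ : Valued.v ϖ = WithZero.exp (-1 : ℤ))
    (a : ℕ → K) (ha : ∀ n, Valued.v (a (n + 1) - a n) ≤ WithZero.exp (-(n : ℤ))) :
    ∃ L : K, ∀ n, Valued.v (L - a n) ≤ WithZero.exp (-(n : ℤ)) := by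
  have hc : CauchySeq a := by
    rw [CauchySeq, Valued.cauchy_iff]
    refine ⟨inferInstance, fun γ => ?_⟩
    set e : Γ₀ := MonoidWithZeroHom.ValueGroup₀.embedding γ.1 with he
    have he0 : e ≠ 0 := by
      intro h
      have h2 : MonoidWithZeroHom.ValueGroup₀.embedding γ.1
          = MonoidWithZeroHom.ValueGroup₀.embedding
            (0 : MonoidWithZeroHom.ValueGroup₀ (MonoidWithZeroHom.ofClass (Valued.v (R := K)))) := by
        rw [map_zero]; exact h
      exact γ.ne_zero (MonoidWithZeroHom.ValueGroup₀.embedding_injective h2)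
    set N : ℕ := (1 - WithZero.log e).toNat with hN
    have hNe : (WithZero.exp (-(N : ℤ)) : Γ₀) < e := by
      rw [← WithZero.exp_log he0, WithZero.exp_lt_exp]
      omega
    refine ⟨a '' {n | N ≤ n}, ?_, ?_⟩
    · refine Filter.mem_map.2 (Filter.mem_atTop_sets.2 ⟨N, fun m hm => ?_⟩)
      exact ⟨m, hm, rfl⟩
    · rintro _ ⟨n, hn, rfl⟩ _ ⟨m, hm, rfl⟩
      rw [Valuation.restrict_lt_iff_lt_embedding]
      refine lt_of_le_of_lt ?_ hNe
      rcases le_total n m with h | h
      · exact (val_sub_le_of_step313 a ha n m h).trans (exp_neg_mono313 hn)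
      · rw [Valuation.map_sub_swap]
        exact (val_sub_le_of_step313 a ha m n h).trans (exp_neg_mono313 hm)
  obtain ⟨L, hL⟩ := cauchySeq_tendsto_of_complete hc
  refine ⟨L, fun n => ?_⟩
  have hcl : IsClosed {y : K | Valued.v (y - a n) ≤ WithZero.exp (-(n : ℤ))} := by
    have h1 := (Valued.isClosed_closedBall K ((Valued.v (R := K)).restrict (ϖ ^ n))).preimage
      (continuous_id.sub (continuous_const (y := a n)))
    convert h1 using 1
    ext y
    simp only [Set.mem_ofPred_eq, Set.mem_preimage, id_eq, Pi.sub_apply]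
    rw [Valuation.restrict_le_iff, val_pow_unif313 ϖ hϖ]
  exact hcl.mem_of_tendsto hL
    (Filter.eventually_atTop.2 ⟨n, fun m hm => val_sub_le_of_step313 a ha n m hm⟩)

end Lim

end Fermat.Agent.LT.T6.H313

end
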