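import Mathlib
import Fermat.Agent.LT.T6.Spec
import Fermat.Agent.LT.T6.H313.LiftJ
import Fermat.Agent.LT.T6.H313.LocalLim

/-!
# Row LT, tower T6, sub-leaf T6.15c3 (helper313): successive approximation

OFF-MAIN.  `K` complete with a valuation in `ℤᵐ⁰` and a uniformiser, `s` a valuation preserving
automorphism with `s ^ l = 1`, `a` a unit and `b` integral, both fixed by `s`,
`Q = K[X]/(X² - bX - a)`, `w` integral with `∑_{j<l} s^j w = 1`.  If `β₁ ∈ Q` is integral and
`N β₁ ≡ X` modulo the maximal ideal, then there is `β ∈ Q` with `N β = X`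
(`exists_nrm_eq_omega_of_approx313`).
-/

set_option autoImplicit false
set_option linter.style.haveILetI false
set_option linter.unusedSectionVars false
set_option linter.unusedVariables false

open Fermat.Agent.LT.T6

noncomputable section

namespace Fermat.Agent.LT.T6.H313

section Lift

variable {K : Type} [Field K] [Valued K Γ₀] {a b : K}

/-- The expansion `N (1 + w δ) = 1 + Tr(w) δ + δ² r`, `r` integral, for `δ` integral and fixed. -/
theorem nrm313_one_add (hav : Valued.v a ≤ 1) (hbv : Valued.v b ≤ 1) (s : K ≃+* K)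
    (hs : ∀ y : K, Valued.v (s y) = Valued.v y) (ha : s a = a) (hb : s b = b) (w : K)
    (hw : Valued.v w ≤ 1) (δ : QuadraticAlgebra K a b) (hδ : InJ313 0 δ)
    (hδfix : qAut313 s ha hb δ = δ) (m : ℕ) :
    ∃ r : QuadraticAlgebra K a b, InJ313 0 r ∧
      nrm313 (⇑(qAut313 s ha hb)) m (1 + QuadraticAlgebra.C w * δ)
        = 1 + QuadraticAlgebra.C (∑ j ∈ Finset.range m, (s ^ j) w) * δ + δ * δ * r := by
  induction m with
  | zero =>
    refine ⟨0, InJ313.zero 0, ?_⟩
    rw [nrm313_zero, Finset.sum_range_zero, QuadraticAlgebra.C_zero]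
    ring
  | succ m ih =>
    obtain ⟨r, hr, hrm⟩ := ih
    set σ := qAut313 s ha hb with hσ
    set S : K := ∑ j ∈ Finset.range m, (s ^ j) w with hS
    have hSv : Valued.v S ≤ 1 := by
      refine Valuation.map_sum_le _ (fun j _ => ?_)
      have h1 : ∀ j : ℕ, Valued.v ((s ^ j) w) = Valued.v w := by
        intro j
        induction j with
        | zero => simp
        | succ j ihj => rw [pow_succ', RingAut.mul_apply, hs, ihj]
      rw [h1]; exact hw
    have hsum : ∑ j ∈ Finset.range (m + 1), (s ^ j) w = w + s S := by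
      rw [Finset.sum_range_succ', hS, map_sum, add_comm]
      simp only [pow_zero, RingAut.one_apply]
      congr 1
      refine Finset.sum_congr rfl fun j _ => ?_
      rw [pow_succ', RingAut.mul_apply]
    refine ⟨QuadraticAlgebra.C w * QuadraticAlgebra.C (s S) + σ r
      + QuadraticAlgebra.C w * δ * σ r, ?_, ?_⟩
    · have hCw : InJ313 0 (QuadraticAlgebra.C w : QuadraticAlgebra K a b) := InJ313.C hw
      have hCS : InJ313 0 (QuadraticAlgebra.C (s S) : QuadraticAlgebra K a b) :=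
        InJ313.C (by rw [hs]; exact hSv)
      have hσr : InJ313 0 (σ r) := InJ313.aut s hs ha hb hr
      exact ((InJ313.mul_left hav hbv hCw hCS).add hσr).add
        (InJ313.mul_left hav hbv (InJ313.mul_left hav hbv hCw hδ) hσr)
    · rw [nrm313_succ, hrm, hsum]
      have h1 : σ (1 + QuadraticAlgebra.C S * δ + δ * δ * r)
          = 1 + QuadraticAlgebra.C (s S) * δ + δ * δ * σ r := by
        rw [map_add, map_add, map_one, map_mul, map_mul, map_mul, hδfix, hσ, qAut313_C]
      rw [h1]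
      have h2 : (QuadraticAlgebra.C (w + s S) : QuadraticAlgebra K a b)
          = QuadraticAlgebra.C w + QuadraticAlgebra.C (s S) := by
        ext <;> simp
      rw [h2]
      ring

/-- The inverse of `ω`. -/
def omegaInv313 (a b : K) : QuadraticAlgebra K a b :=
  QuadraticAlgebra.C a⁻¹ * (QuadraticAlgebra.omega - QuadraticAlgebra.C b)

theorem omega_mul_omegaInv313 (ha0 : a ≠ 0) :
    (QuadraticAlgebra.omega : QuadraticAlgebra K a b) * omegaInv313 a b = 1 := by
  unfold omegaInv313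
  ext
  · simp only [QuadraticAlgebra.re_mul, QuadraticAlgebra.im_mul, QuadraticAlgebra.re_sub,
      QuadraticAlgebra.im_sub, QuadraticAlgebra.omega_re, QuadraticAlgebra.omega_im,
      QuadraticAlgebra.re_C, QuadraticAlgebra.im_C, QuadraticAlgebra.re_one]
    field_simp
    ring
  · simp only [QuadraticAlgebra.re_mul, QuadraticAlgebra.im_mul, QuadraticAlgebra.re_sub,
      QuadraticAlgebra.im_sub, QuadraticAlgebra.omega_re, QuadraticAlgebra.omega_im,
      QuadraticAlgebra.re_C, QuadraticAlgebra.im_C, QuadraticAlgebra.im_one]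
    ring

theorem omegaInv313_inJ (hav : Valued.v a = 1) (hbv : Valued.v b ≤ 1) :
    InJ313 0 (omegaInv313 a b) := by
  unfold omegaInv313
  refine InJ313.mul_left hav.le hbv (InJ313.C ?_) (InJ313.omega.sub (InJ313.C hbv))
  rw [map_inv₀, hav, inv_one]

theorem omegaInv313_fixed (s : K ≃+* K) (ha : s a = a) (hb : s b = b) :
    qAut313 s ha hb (omegaInv313 a b) = omegaInv313 a b := by
  unfold omegaInv313
  rw [map_mul, map_sub, qAut313_omega, qAut313_C, qAut313_C, hb, map_inv₀, ha]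

/-- One step of the approximation. -/
theorem lift_step313 (hav : Valued.v a = 1) (hbv : Valued.v b ≤ 1) (s : K ≃+* K)
    (hs : ∀ y : K, Valued.v (s y) = Valued.v y) (ha : s a = a) (hb : s b = b) (l : ℕ)
    (hsl : ∀ y : K, (s ^ l) y = y) (w : K) (hw : Valued.v w ≤ 1)
    (hwtr : ∑ j ∈ Finset.range l, (s ^ j) w = 1) (n : ℕ) (hn : 1 ≤ n)
    (β : QuadraticAlgebra K a b) (hβ : InJ313 0 β)
    (hE : InJ313 n (omegaInv313 a b * nrm313 (⇑(qAut313 s ha hb)) l β - 1)) :
    ∃ β' : QuadraticAlgebra K a b, (InJ313 0 β' ∧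
      InJ313 (n + 1) (omegaInv313 a b * nrm313 (⇑(qAut313 s ha hb)) l β' - 1)) ∧
      InJ313 n (β' - β) := by
  set σ := qAut313 s ha hb with hσ
  set δ := omegaInv313 a b * nrm313 (⇑σ) l β - 1 with hδ
  have hσl : (⇑σ)^[l] β = β := by
    rw [iterate_eq_pow313]
    ext
    · rw [hσ, qAut313_pow_re, hsl]
    · rw [hσ, qAut313_pow_im, hsl]
  have hfixN : σ (nrm313 (⇑σ) l β) = nrm313 (⇑σ) l β :=
    nrm313_fixed (⇑σ) (map_one σ) (map_mul σ) l β hσl
  have hδfix : σ δ = δ := by
    rw [hδ, map_sub, map_mul, map_one, hfixN, hσ, omegaInv313_fixed s ha hb]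
  have hnδ : InJ313 n (-δ) := hE.neg
  have hnδfix : σ (-δ) = -δ := by rw [map_neg, hδfix]
  obtain ⟨r, hr, hrm⟩ := nrm313_one_add hav.le hbv s hs ha hb w hw (-δ) (hnδ.mono (Nat.zero_le n))
    hnδfix l
  rw [hwtr, QuadraticAlgebra.C_one] at hrm
  refine ⟨β * (1 + QuadraticAlgebra.C w * (-δ)), ⟨?_, ?_⟩, ?_⟩
  · refine InJ313.mul_left hav.le hbv hβ (InJ313.one.add ?_)
    exact InJ313.mul_left hav.le hbv (InJ313.C hw) (hnδ.mono (Nat.zero_le n))
  · rw [nrm313_mul (⇑σ) (map_mul σ), hrm]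
    have h1 : omegaInv313 a b * (nrm313 (⇑σ) l β * (1 + 1 * -δ + -δ * -δ * r)) - 1
        = δ * δ * (r - 1 + δ * r) := by
      have h2 : omegaInv313 a b * nrm313 (⇑σ) l β = 1 + δ := by rw [hδ]; ring
      calc omegaInv313 a b * (nrm313 (⇑σ) l β * (1 + 1 * -δ + -δ * -δ * r)) - 1
          = (omegaInv313 a b * nrm313 (⇑σ) l β) * (1 + 1 * -δ + -δ * -δ * r) - 1 := by ring
        _ = (1 + δ) * (1 + 1 * -δ + -δ * -δ * r) - 1 := by rw [h2]
        _ = δ * δ * (r - 1 + δ * r) := by ring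
    rw [h1]
    have h3 : InJ313 (n + n) (δ * δ) := InJ313.mul hav.le hbv hE hE
    have h4 : InJ313 0 (r - 1 + δ * r) :=
      (hr.sub InJ313.one).add (InJ313.mul_left hav.le hbv (hE.mono (Nat.zero_le n)) hr)
    exact (InJ313.mul_right hav.le hbv h3 h4).mono (by omega)
  · have h1 : β * (1 + QuadraticAlgebra.C w * (-δ)) - β = β * (QuadraticAlgebra.C w * (-δ)) := by
      ring
    rw [h1]
    exact InJ313.mul_left hav.le hbv hβ (InJ313.mul_left hav.le hbv (InJ313.C hw) hnδ)

/-- **Successive approximation**: from a solution modulo the maximal ideal to a solution. -/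
theorem exists_nrm_eq_omega_of_approx313 [CompleteSpace K] (ϖ : K)
    (hϖ : Valued.v ϖ = WithZero.exp (-1 : ℤ)) (hav : Valued.v a = 1) (hbv : Valued.v b ≤ 1)
    (s : K ≃+* K) (hs : ∀ y : K, Valued.v (s y) = Valued.v y) (ha : s a = a) (hb : s b = b)
    (l : ℕ) (hsl : ∀ y : K, (s ^ l) y = y) (w : K) (hw : Valued.v w ≤ 1)
    (hwtr : ∑ j ∈ Finset.range l, (s ^ j) w = 1) (β₁ : QuadraticAlgebra K a b)
    (h1re : Valued.v β₁.re ≤ 1) (h1im : Valued.v β₁.im ≤ 1)
    (hres_re : Valued.v ((nrm313 (⇑(qAut313 s ha hb)) l β₁ - QuadraticAlgebra.omega).re) < 1)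
    (hres_im : Valued.v ((nrm313 (⇑(qAut313 s ha hb)) l β₁ - QuadraticAlgebra.omega).im) < 1) :
    ∃ β : QuadraticAlgebra K a b,
      nrm313 (⇑(qAut313 s ha hb)) l β = QuadraticAlgebra.omega := by
  set σ := qAut313 s ha hb with hσ
  have ha0 : a ≠ 0 := by
    intro h
    rw [h, map_zero] at hav
    exact zero_ne_one hav
  have hωω : (QuadraticAlgebra.omega : QuadraticAlgebra K a b) * omegaInv313 a b = 1 :=
    omega_mul_omegaInv313 ha0
  have hω' : InJ313 0 (omegaInv313 a b) := omegaInv313_inJ hav hbv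
  -- the first approximation
  have hβ₁ : InJ313 0 β₁ := (inJ313_zero_iff _).2 ⟨h1re, h1im⟩
  have hE₁ : InJ313 (0 + 1) (omegaInv313 a b * nrm313 (⇑σ) l β₁ - 1) := by
    have h1 : omegaInv313 a b * nrm313 (⇑σ) l β₁ - 1
        = omegaInv313 a b * (nrm313 (⇑σ) l β₁ - QuadraticAlgebra.omega) := by
      rw [mul_sub, mul_comm (omegaInv313 a b) QuadraticAlgebra.omega, hωω]
    rw [h1]
    refine InJ313.mul_left hav.le hbv hω' ⟨?_, ?_⟩
    · simpa using le_exp_of_lt_one313 hres_re
    · simpa using le_exp_of_lt_one313 hres_im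
  -- the sequence
  obtain ⟨f, hf⟩ := exists_seq313
    (fun n (z : QuadraticAlgebra K a b) =>
      InJ313 0 z ∧ InJ313 (n + 1) (omegaInv313 a b * nrm313 (⇑σ) l z - 1))
    (fun n z z' => InJ313 (n + 1) (z' - z)) β₁ ⟨hβ₁, hE₁⟩
    (fun n z hz => lift_step313 hav hbv s hs ha hb l hsl w hw hwtr (n + 1) (by omega) z hz.1 hz.2)
  -- the limit
  obtain ⟨Lre, hLre⟩ := exists_limit313 ϖ hϖ (fun n => (f n).re)
    (fun n => ((hf n).2.1).trans (exp_neg_mono313 (Nat.le_succ n)))
  obtain ⟨Lim, hLim⟩ := exists_limit313 ϖ hϖ (fun n => (f n).im)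
    (fun n => ((hf n).2.2).trans (exp_neg_mono313 (Nat.le_succ n)))
  set β : QuadraticAlgebra K a b := ⟨Lre, Lim⟩ with hβdef
  have hβf : ∀ n, InJ313 n (β - f n) := fun n => ⟨hLre n, hLim n⟩
  have hβ : InJ313 0 β := by
    have h1 : β = (β - f 0) + f 0 := by ring
    rw [h1]
    exact (hβf 0).add (hf 0).1.1
  have hall : ∀ n, InJ313 n (omegaInv313 a b * nrm313 (⇑σ) l β - 1) := by
    intro n
    have h1 : omegaInv313 a b * nrm313 (⇑σ) l β - 1
        = omegaInv313 a b * (nrm313 (⇑σ) l β - nrm313 (⇑σ) l (f n))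
          + (omegaInv313 a b * nrm313 (⇑σ) l (f n) - 1) := by ring
    rw [h1]
    refine InJ313.add ?_ ((hf n).1.2.mono (Nat.le_succ n))
    exact InJ313.mul_left hav.le hbv hω'
      (InJ313.nrm_sub hav.le hbv s hs ha hb hβ (hf n).1.1 (hβf n) l)
  have hfin := eq_zero_of_forall_inJ313 _ hall
  refine ⟨β, ?_⟩
  have h2 : omegaInv313 a b * nrm313 (⇑σ) l β = 1 := sub_eq_zero.1 hfin
  calc nrm313 (⇑σ) l β
      = (QuadraticAlgebra.omega * omegaInv313 a b) * nrm313 (⇑σ) l β := by rw [hωω, one_mul]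
    _ = QuadraticAlgebra.omega * (omegaInv313 a b * nrm313 (⇑σ) l β) := by ring
    _ = QuadraticAlgebra.omega := by rw [h2, mul_one]

end Lift

end Fermat.Agent.LT.T6.H313

end
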