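import Mathlib
import Fermat.Agent.LT.T6.Spec
import Fermat.Agent.LT.T6.H313.LocalBasic

/-!
# Row LT, tower T6, sub-leaf T6.15c3 (helper313): the residue automorphism of an unramified
cyclic extension of prime degree

OFF-MAIN.  `k'/k` as in `T6.IsLocalExt k k' l 1 i s`, `l` prime.

* `sO313`, `sBar313`: the automorphisms of the valuation ring and of the residue field induced
  by `s`;
* `sBar313_ne_one`: the residue automorphism is not the identity (counting: otherwise every
  `l`-th power of the residue field of `k'` would be the residue of an element of `k`);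
* `exists_trace_one313`: an integral element of trace `1`.
-/

set_option autoImplicit false
set_option linter.style.haveILetI false
set_option linter.unusedSectionVars false
set_option linter.unusedVariables false

open Fermat.Agent.LT.T6

noncomputable section

namespace Fermat.Agent.LT.T6.H313

section Aut

variable {K : Type} [Field K] [Valued K Γ₀]

/-- The automorphism of the valuation ring induced by a valuation preserving automorphism. -/
def sO313 (s : K ≃+* K) (hs : ∀ y : K, Valued.v (s y) = Valued.v y) :
    Valued.integer K ≃+* Valued.integer K where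
  toFun y := ⟨s y.1, by rw [Valuation.mem_integer_iff, hs]; exact y.2⟩
  invFun y := ⟨s.symm y.1, by
    rw [Valuation.mem_integer_iff, ← hs, s.apply_symm_apply]; exact y.2⟩
  left_inv y := Subtype.ext (s.symm_apply_apply _)
  right_inv y := Subtype.ext (s.apply_symm_apply _)
  map_mul' x y := Subtype.ext (map_mul s _ _)
  map_add' x y := Subtype.ext (map_add s _ _)

variable (s : K ≃+* K) (hs : ∀ y : K, Valued.v (s y) = Valued.v y)

@[simp] theorem coe_sO313 (y : Valued.integer K) : ((sO313 s hs y : Valued.integer K) : K) = s y :=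
  rfl

theorem coe_sO313_pow (n : ℕ) (y : Valued.integer K) :
    ((((sO313 s hs) ^ n) y : Valued.integer K) : K) = (s ^ n) y := by
  induction n generalizing y with
  | zero => simp
  | succ n ih => rw [pow_succ, pow_succ, RingAut.mul_apply, RingAut.mul_apply, ih]; rfl

/-- The automorphism of the residue field induced by `s`. -/
def sBar313 : Res313 K ≃+* Res313 K :=
  IsLocalRing.ResidueField.mapEquiv (sO313 s hs)

theorem sBar313_res (y : Valued.integer K) :
    sBar313 s hs (res313 K y) = res313 K (sO313 s hs y) :=
  IsLocalRing.ResidueField.map_residue _ y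

theorem sBar313_pow_res (n : ℕ) (y : Valued.integer K) :
    ((sBar313 s hs) ^ n) (res313 K y) = res313 K (((sO313 s hs) ^ n) y) := by
  induction n generalizing y with
  | zero => simp
  | succ n ih =>
    rw [pow_succ, pow_succ, RingAut.mul_apply, RingAut.mul_apply, sBar313_res, ih]

theorem sBar313_pow_eq_one (l : ℕ) (hsl : ∀ y : K, (s ^ l) y = y) (yb : Res313 K) :
    ((sBar313 s hs) ^ l) yb = yb := by
  obtain ⟨y, rfl⟩ := res313_surjective yb
  rw [sBar313_pow_res]
  congr 1
  exact Subtype.ext ((coe_sO313_pow s hs l y).trans (hsl _))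

end Aut

/-! ## The residue automorphism is not the identity -/

theorem nrm313_of_id {M : Type*} [CommMonoid M] (σ : M → M) (hσ : ∀ x, σ x = x) (n : ℕ) (β : M) :
    nrm313 σ n β = β ^ n := by
  induction n with
  | zero => simp
  | succ n ih => rw [nrm313_succ, hσ, ih, pow_succ']

theorem arith313 (q l : ℕ) (hq : 2 ≤ q) (hl : 2 ≤ l) : l * (q - 1) + 1 < q ^ l := by
  obtain ⟨m, rfl⟩ : ∃ m, q = m + 2 := ⟨q - 2, by omega⟩
  have h1 : m + 2 - 1 = m + 1 := by omega
  rw [h1]
  induction l, hl using Nat.le_induction with
  | base => nlinarith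
  | succ l hl ih =>
    have h2 : (m + 2) ^ (l + 1) = (m + 2) * (m + 2) ^ l := by ring
    rw [h2]
    have h3 : (m + 2) * (l * (m + 1) + 1 + 1) ≤ (m + 2) * (m + 2) ^ l :=
      Nat.mul_le_mul_left _ ih
    have h4 : (l + 1) * (m + 1) + 1 < (m + 2) * (l * (m + 1) + 1 + 1) := by
      have e1 : 0 ≤ l * m * m := Nat.zero_le _
      have e2 : 0 ≤ l * m := Nat.zero_le _
      nlinarith
    exact lt_of_lt_of_le h4 h3

section NeOne

variable {k K : Type} [Field k] [Field K] [Valued k Γ₀] [Valued K Γ₀]

theorem sBar313_ne_one {q l : ℕ} {i : k →+* K} {s : K ≃+* K} (hk : IsLocalField k q)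
    (hK : IsLocalField K (q ^ l)) (he : IsLocalExt k K l 1 i s) (hl : l.Prime) :
    ∃ yb : Res313 K, sBar313 s he.val_s yb ≠ yb := by
  classical
  by_contra hcon
  simp only [ne_eq, not_exists, not_not] at hcon
  haveI : Finite (Res313 K) := finite_residue313 hK
  haveI : Fintype (Res313 K) := Fintype.ofFinite _
  have hi : ∀ x : k, Valued.v (i x) = Valued.v x := fun x => by rw [he.val_i, pow_one]
  obtain ⟨S, hScard, h0S, hS⟩ := exists_residue_image313 hk i hi
  -- every `l`-th power lies in `S`
  have hpow : ∀ yb : Res313 K, yb ^ l ∈ S := by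
    intro yb
    obtain ⟨y, rfl⟩ := res313_surjective yb
    set P : Valued.integer K := nrm313 (⇑(sO313 s he.val_s)) l y with hP
    have h1 : res313 K P = (res313 K y) ^ l := by
      rw [hP, nrm313_map (⇑(res313 K)) (map_one _) (map_mul _) (⇑(sO313 s he.val_s))
        (⇑(sBar313 s he.val_s)) (fun x => (sBar313_res s he.val_s x).symm) l y,
        nrm313_of_id _ hcon]
    have h2 : sO313 s he.val_s P = P := by
      refine nrm313_fixed _ (map_one _) (map_mul _) l y ?_
      rw [iterate_eq_pow313]
      exact Subtype.ext ((coe_sO313_pow s he.val_s l y).trans (he.cyc.order _))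
    have h3 : s (P : K) = P := congrArg Subtype.val h2
    obtain ⟨x, hx⟩ := he.cyc.fixed _ h3
    have hx1 : Valued.v (i x) ≤ 1 := by rw [hx]; exact P.2
    have h4 : P = ⟨i x, hx1⟩ := Subtype.ext hx.symm
    rw [← h1, h4]
    exact hS x hx1
  -- counting
  have hq2 : 2 ≤ q := two_le_card313 hk
  have hcard : q ^ l ≤ Fintype.card (Res313 K) := by
    have := card_residue_ge313 hK
    rwa [Nat.card_eq_fintype_card] at this
  set U : Finset (Res313 K) := Finset.univ.filter (fun y => y ≠ 0) with hU
  have hUcard : Fintype.card (Res313 K) ≤ U.card + 1 := by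
    have h1 : (Finset.univ : Finset (Res313 K)) ⊆ insert 0 U := by
      intro y _
      by_cases hy : y = 0
      · simp [hy]
      · exact Finset.mem_insert_of_mem (Finset.mem_filter.2 ⟨Finset.mem_univ _, hy⟩)
    calc Fintype.card (Res313 K) = (Finset.univ : Finset (Res313 K)).card := rfl
      _ ≤ (insert 0 U).card := Finset.card_le_card h1
      _ ≤ U.card + 1 := Finset.card_insert_le _ _
  have himg : U.image (fun y => y ^ l) ⊆ S.erase 0 := by
    intro c hc
    obtain ⟨y, hy, rfl⟩ := Finset.mem_image.1 hc
    have hy0 : y ≠ 0 := (Finset.mem_filter.1 hy).2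
    exact Finset.mem_erase.2 ⟨pow_ne_zero _ hy0, hpow y⟩
  have hfib : ∀ c ∈ U.image (fun y => y ^ l), (U.filter (fun y => y ^ l = c)).card ≤ l := by
    intro c _
    have h1 : U.filter (fun y => y ^ l = c) ⊆ (Polynomial.nthRoots l c).toFinset := by
      intro y hy
      rw [Multiset.mem_toFinset, Polynomial.mem_nthRoots hl.pos]
      exact (Finset.mem_filter.1 hy).2
    exact (Finset.card_le_card h1).trans
      ((Multiset.toFinset_card_le _).trans (Polynomial.card_nthRoots l c))
  have h5 := Finset.card_le_mul_card_image U l hfib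
  have h6 : (U.image (fun y => y ^ l)).card ≤ q - 1 := by
    refine (Finset.card_le_card himg).trans ?_
    rw [Finset.card_erase_of_mem h0S]
    omega
  have h7 : U.card ≤ l * (q - 1) := h5.trans (Nat.mul_le_mul_left _ h6)
  have h8 := arith313 q l hq2 hl.two_le
  omega

end NeOne

end Fermat.Agent.LT.T6.H313

end
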