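import Mathlib
import Fermat.Agent.LT.T6.H313.FinNorm
import Fermat.Agent.LT.T6.H313.QuadFrame

/-!
# Row LT, tower T6, sub-leaf T6.15c3 (helper313): the residue level

OFF-MAIN.  `F` a finite field, `σ` an automorphism of prime order `l`, `a, b` fixed by `σ`,
`a ≠ 0`.  In `F[X]/(X² - b X - a)` (with `σ` acting on the coefficients) the class `ω` of `X` is
a twisted norm: `ω = β · σ(β) ⋯ σ^{l-1}(β)` (`exists_nrm_eq_omega313`).

Cases: no root in `F` (the quadratic algebra is a finite field, `FinNorm`), two distinct roots
fixed by `σ` (two evaluations), a double root (dual numbers), two roots exchanged by `σ`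
(`l = 2`, explicit).
-/

set_option autoImplicit false
set_option linter.style.haveILetI false
set_option linter.unusedSectionVars false
set_option linter.unusedVariables false

namespace Fermat.Agent.LT.T6.H313

section QuadRes

variable {F : Type} [Field F]

/-- Two evaluations at distinct roots are jointly injective. -/
theorem qEval313_joint_inj {a b : F} (r r' : F) (hr : r * r = a + b * r)
    (hr' : r' * r' = a + b * r') (hne : r ≠ r') (z w : QuadraticAlgebra F a b)
    (h1 : qEval313 r hr z = qEval313 r hr w) (h2 : qEval313 r' hr' z = qEval313 r' hr' w) :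
    z = w := by
  simp only [qEval313_apply] at h1 h2
  have h3 : (z.im - w.im) * (r - r') = 0 := by linear_combination h1 - h2
  have h4 : z.im = w.im := by
    rcases mul_eq_zero.1 h3 with h | h
    · exact sub_eq_zero.1 h
    · exact absurd (sub_eq_zero.1 h) hne
  have h5 : z.re = w.re := by
    rw [h4] at h1
    exact add_right_cancel h1
  exact QuadraticAlgebra.ext h5 h4

/-- The twisted norm of `1 + z ε` when `ε² = 0` and `ε` is fixed. -/
theorem nrm313_one_add_eps {a b : F} (σ : F ≃+* F) (ha : σ a = a) (hb : σ b = b)
    (ε : QuadraticAlgebra F a b) (hε : ε * ε = 0) (hσε : qAut313 σ ha hb ε = ε) (z : F)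
    (n : ℕ) :
    nrm313 (⇑(qAut313 σ ha hb)) n (1 + QuadraticAlgebra.C z * ε)
      = 1 + QuadraticAlgebra.C (∑ j ∈ Finset.range n, (σ ^ j) z) * ε := by
  induction n with
  | zero => simp
  | succ n ih =>
    rw [nrm313_succ, ih, map_add, map_one, map_mul, hσε, qAut313_C, Finset.sum_range_succ',
      map_sum]
    have h2 : ∀ j ∈ Finset.range n, σ ((σ ^ j) z) = (σ ^ (j + 1)) z := by
      intro j _
      rw [pow_succ', RingAut.mul_apply]
    rw [Finset.sum_congr rfl h2]
    simp only [pow_zero, RingAut.one_apply]
    set S := ∑ j ∈ Finset.range n, (σ ^ (j + 1)) z with hS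
    have h3 : (QuadraticAlgebra.C (S + z) : QuadraticAlgebra F a b)
        = QuadraticAlgebra.C S + QuadraticAlgebra.C z := by
      ext <;> simp
    rw [h3]
    linear_combination (QuadraticAlgebra.C z * QuadraticAlgebra.C S) * hε

variable [Finite F]

theorem exists_nrm_eq_omega313 (σ : F ≃+* F) (l : ℕ) (hl : l.Prime)
    (hσl : ∀ y : F, (σ ^ l) y = y) (hσ1 : ∃ y : F, σ y ≠ y) (a b : F) (ha : σ a = a)
    (hb : σ b = b) (ha0 : a ≠ 0) :
    ∃ β : QuadraticAlgebra F a b,
      nrm313 (⇑(qAut313 σ ha hb)) l β = QuadraticAlgebra.omega := by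
  classical
  by_cases hroot : ∀ r : F, r ^ 2 ≠ a + b * r
  · -- no root: the quadratic algebra is a finite field
    haveI : Fact (∀ r : F, r ^ 2 ≠ a + b * r) := ⟨hroot⟩
    haveI : Finite (QuadraticAlgebra F a b) :=
      Finite.of_equiv _ (QuadraticAlgebra.equivProd a b).symm
    have h1 : ∀ y : QuadraticAlgebra F a b, (qAut313 σ ha hb ^ l) y = y := by
      intro y
      ext
      · rw [qAut313_pow_re, hσl]
      · rw [qAut313_pow_im, hσl]
    have h2 : ∃ y : QuadraticAlgebra F a b, qAut313 σ ha hb y ≠ y := by
      obtain ⟨y, hy⟩ := hσ1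
      refine ⟨QuadraticAlgebra.C y, fun h => hy ?_⟩
      rw [qAut313_C] at h
      exact QuadraticAlgebra.C_injective h
    obtain ⟨β, hβ⟩ := exists_prod_pow_eq313 (qAut313 σ ha hb) l hl h1 h2
      QuadraticAlgebra.omega (qAut313_omega σ ha hb)
    exact ⟨β, (nrm313_ringEquiv _ l β).trans hβ⟩
  · simp only [not_forall, ne_eq, not_not] at hroot
    obtain ⟨r, hr2⟩ := hroot
    have hr : r * r = a + b * r := by rw [← hr2]; ring
    set r' : F := b - r with hr'def
    have hr' : r' * r' = a + b * r' := by rw [hr'def]; linear_combination hr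
    have hrr' : r * r' = -a := by rw [hr'def]; linear_combination -hr
    have hr0 : r ≠ 0 := by
      rintro rfl
      rw [zero_mul] at hrr'
      exact ha0 (neg_eq_zero.1 hrr'.symm)
    by_cases hfix : σ r = r
    · have hfix' : σ r' = r' := by rw [hr'def, map_sub, hb, hfix]
      have hev : ∀ z : QuadraticAlgebra F a b,
          qEval313 r hr (qAut313 σ ha hb z) = σ (qEval313 r hr z) := by
        intro z
        simp only [qEval313_apply, qAut313_re, qAut313_im, map_add, map_mul, hfix]
      have hev' : ∀ z : QuadraticAlgebra F a b,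
          qEval313 r' hr' (qAut313 σ ha hb z) = σ (qEval313 r' hr' z) := by
        intro z
        simp only [qEval313_apply, qAut313_re, qAut313_im, map_add, map_mul, hfix']
      by_cases hne : r = r'
      · -- double root: dual numbers
        obtain ⟨y, hy⟩ := exists_prod_pow_eq313 σ l hl hσl hσ1 r hfix
        have hfixinv : σ r⁻¹ = r⁻¹ := by rw [map_inv₀, hfix]
        obtain ⟨z, hz⟩ := exists_sum_pow_eq313 σ l hl hσl hσ1 r⁻¹ hfixinv
        set ε : QuadraticAlgebra F a b := QuadraticAlgebra.omega - QuadraticAlgebra.C r with hε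
        have hb2 : b = 2 * r := by
          have : r = b - r := hne
          linear_combination (-1 : F) * this
        have ha2 : a = -(r * r) := by
          have h := hrr'
          rw [← hne] at h
          linear_combination h
        have hεε : ε * ε = 0 := by
          rw [hε]
          ext
          · simp
            rw [ha2]; ring
          · simp
            rw [hb2]; ring
        have hσε : qAut313 σ ha hb ε = ε := by
          rw [hε, map_sub, qAut313_omega, qAut313_C, hfix]
        refine ⟨QuadraticAlgebra.C y * (1 + QuadraticAlgebra.C z * ε), ?_⟩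
        rw [nrm313_mul _ (map_mul (qAut313 σ ha hb)), nrm313_one_add_eps σ ha hb ε hεε hσε z l, hz]
        have h5 : nrm313 (⇑(qAut313 σ ha hb)) l (QuadraticAlgebra.C y : QuadraticAlgebra F a b)
            = QuadraticAlgebra.C (nrm313 (⇑σ) l y) :=
          (nrm313_map (fun x : F => (QuadraticAlgebra.C x : QuadraticAlgebra F a b))
            QuadraticAlgebra.C_one (fun x y => QuadraticAlgebra.C_mul x y) (⇑σ)
            (⇑(qAut313 σ ha hb)) (fun x => (qAut313_C σ ha hb x).symm) l y).symm
        rw [h5, nrm313_ringEquiv, hy, hε]
        have h6 : (QuadraticAlgebra.C r : QuadraticAlgebra F a b) * QuadraticAlgebra.C r⁻¹ = 1 := by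
          rw [← QuadraticAlgebra.C_mul, mul_inv_cancel₀ hr0, QuadraticAlgebra.C_one]
        linear_combination
          ((QuadraticAlgebra.omega : QuadraticAlgebra F a b) - QuadraticAlgebra.C r) * h6
      · -- two distinct fixed roots
        obtain ⟨y₁, hy₁⟩ := exists_prod_pow_eq313 σ l hl hσl hσ1 r hfix
        obtain ⟨y₂, hy₂⟩ := exists_prod_pow_eq313 σ l hl hσl hσ1 r' hfix'
        have hsub : r - r' ≠ 0 := sub_ne_zero.2 hne
        set bb : F := (y₁ - y₂) / (r - r') with hbb
        refine ⟨⟨y₁ - bb * r, bb⟩, ?_⟩
        refine qEval313_joint_inj r r' hr hr' hne _ _ ?_ ?_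
        · rw [nrm313_map (⇑(qEval313 r hr)) (map_one _) (map_mul _) (⇑(qAut313 σ ha hb)) (⇑σ)
            hev l]
          have : qEval313 r hr (⟨y₁ - bb * r, bb⟩ : QuadraticAlgebra F a b) = y₁ := by
            simp [qEval313_apply]
          rw [this, nrm313_ringEquiv, hy₁]
          simp [qEval313_apply]
        · rw [nrm313_map (⇑(qEval313 r' hr')) (map_one _) (map_mul _) (⇑(qAut313 σ ha hb)) (⇑σ)
            hev' l]
          have : qEval313 r' hr' (⟨y₁ - bb * r, bb⟩ : QuadraticAlgebra F a b) = y₂ := by
            simp only [qEval313_apply]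
            rw [hbb]
            field_simp
            ring
          rw [this, nrm313_ringEquiv, hy₂]
          simp [qEval313_apply]
    · -- two roots exchanged by `σ`, `l = 2`
      have hσr : σ r = r' := by
        have h1 : σ r * σ r = a + b * σ r := by
          have := congrArg σ hr
          rwa [map_mul, map_add, map_mul, ha, hb] at this
        have h2 : (σ r - r) * (σ r - r') = 0 := by
          rw [hr'def]; linear_combination h1 - hr
        rcases mul_eq_zero.1 h2 with h | h
        · exact absurd (sub_eq_zero.1 h) hfix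
        · exact sub_eq_zero.1 h
      have hσr' : σ r' = r := by
        rw [hr'def, map_sub, hb, hσr, hr'def]; ring
      have hne : r ≠ r' := fun h => hfix (hσr.trans h.symm)
      have hl2 : l = 2 := by
        rcases hl.eq_two_or_odd' with h | h
        · exact h
        · exfalso
          obtain ⟨k, rfl⟩ := h
          have h2 : ∀ m : ℕ, (σ ^ (2 * m)) r = r := by
            intro m
            induction m with
            | zero => simp
            | succ m ih =>
              rw [Nat.mul_succ, pow_add, RingAut.mul_apply, pow_two, RingAut.mul_apply, hσr,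
                hσr', ih]
          have h3 := hσl r
          rw [pow_succ', RingAut.mul_apply, h2 k] at h3
          exact hfix h3
      subst hl2
      have hsub : r - r' ≠ 0 := sub_ne_zero.2 hne
      set bb : F := (r - 1) / (r - r') with hbb
      refine ⟨⟨r - bb * r, bb⟩, ?_⟩
      have hnrm : ∀ β : QuadraticAlgebra F a b,
          nrm313 (⇑(qAut313 σ ha hb)) 2 β = β * qAut313 σ ha hb β := by
        intro β
        show β * qAut313 σ ha hb (β * qAut313 σ ha hb 1) = β * qAut313 σ ha hb β
        rw [map_one, mul_one]
      rw [hnrm]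
      have e1 : qEval313 r hr (⟨r - bb * r, bb⟩ : QuadraticAlgebra F a b) = r := by
        simp [qEval313_apply]
      have e2 : qEval313 r' hr' (⟨r - bb * r, bb⟩ : QuadraticAlgebra F a b) = 1 := by
        simp only [qEval313_apply]
        rw [hbb]
        field_simp
        ring
      have hev : ∀ z : QuadraticAlgebra F a b,
          qEval313 r hr (qAut313 σ ha hb z) = σ (qEval313 r' hr' z) := by
        intro z
        simp only [qEval313_apply, qAut313_re, qAut313_im, map_add, map_mul, hσr']
      have hev' : ∀ z : QuadraticAlgebra F a b,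
          qEval313 r' hr' (qAut313 σ ha hb z) = σ (qEval313 r hr z) := by
        intro z
        simp only [qEval313_apply, qAut313_re, qAut313_im, map_add, map_mul, hσr]
      refine qEval313_joint_inj r r' hr hr' hne _ _ ?_ ?_
      · rw [map_mul, hev, e1, e2, map_one, mul_one]
        simp [qEval313_apply]
      · rw [map_mul, hev', e1, e2, one_mul, hσr]
        simp [qEval313_apply]

end QuadRes

end Fermat.Agent.LT.T6.H313
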