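import Mathlib
import Fermat.Agent.LT.T6.Spec
import Fermat.Agent.LT.T6.H313.QuadRes
import Fermat.Agent.LT.T6.H313.LocalAut

/-!
# Row LT, tower T6, sub-leaf T6.15c3 (helper313): the first approximation

OFF-MAIN.  `k'/k` as in `T6.IsLocalExt k k' l 1 i s`, `l` prime.

* `exists_trace_one313`: an integral `w ∈ k'` with `∑_{j<l} s^j w = 1`;
* `exists_res_norm313`: for `t, d ∈ k`, `t` integral, `d` a unit, an integral
  `β ∈ k'[X]/(X² - tX + d)` with `N β ≡ X` modulo the maximal ideal.
-/

set_option autoImplicit false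
set_option linter.style.haveILetI false
set_option linter.unusedSectionVars false
set_option linter.unusedVariables false

open Fermat.Agent.LT.T6

noncomputable section

namespace Fermat.Agent.LT.T6.H313

section

variable {k K : Type} [Field k] [Field K] [Valued k Γ₀] [Valued K Γ₀]
  {q l : ℕ} {i : k →+* K} {s : K ≃+* K}

/-- A sum over a full period is invariant. -/
theorem sum_pow_fixed313 (s : K ≃+* K) (l : ℕ) (hl : 0 < l) (hsl : ∀ y : K, (s ^ l) y = y)
    (w : K) : s (∑ j ∈ Finset.range l, (s ^ j) w) = ∑ j ∈ Finset.range l, (s ^ j) w := by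
  obtain ⟨m, rfl⟩ : ∃ m, l = m + 1 := ⟨l - 1, by omega⟩
  rw [map_sum]
  have h1 : ∀ j ∈ Finset.range (m + 1), s ((s ^ j) w) = (s ^ (j + 1)) w := by
    intro j _
    rw [pow_succ', RingAut.mul_apply]
  rw [Finset.sum_congr rfl h1, Finset.sum_range_succ, hsl, Finset.sum_range_succ' (fun j => (s ^ j) w)]
  simp

theorem pow_apply_fixed313 (s : K ≃+* K) (x : K) (hx : s x = x) (j : ℕ) : (s ^ j) x = x := by
  induction j with
  | zero => simp
  | succ j ih => rw [pow_succ, RingAut.mul_apply, hx, ih]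

theorem exists_trace_one313 (hk : IsLocalField k q) (hK : IsLocalField K (q ^ l))
    (he : IsLocalExt k K l 1 i s) (hl : l.Prime) :
    ∃ w : K, Valued.v w ≤ 1 ∧ ∑ j ∈ Finset.range l, (s ^ j) w = 1 := by
  classical
  haveI : Finite (Res313 K) := finite_residue313 hK
  have hσl := sBar313_pow_eq_one s he.val_s l he.cyc.order
  have hσ1 := sBar313_ne_one hk hK he hl
  obtain ⟨wb, hwb⟩ := exists_sum_pow_eq313 (sBar313 s he.val_s) l hl hσl hσ1 1 (map_one _)
  obtain ⟨w₀, rfl⟩ := res313_surjective wb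
  set Tw : K := ∑ j ∈ Finset.range l, (s ^ j) (w₀ : K) with hTw
  have hmem : ∀ j : ℕ, Valued.v ((s ^ j) (w₀ : K)) ≤ 1 := by
    intro j
    rw [← coe_sO313_pow s he.val_s j w₀]
    exact (((sO313 s he.val_s) ^ j) w₀).2
  have hTw1 : Valued.v Tw ≤ 1 := Valuation.map_sum_le _ (fun j _ => hmem j)
  have hres : res313 K ⟨Tw, hTw1⟩ = 1 := by
    have h1 : (⟨Tw, hTw1⟩ : Valued.integer K)
        = ∑ j ∈ Finset.range l, ((sO313 s he.val_s) ^ j) w₀ := by
      apply Subtype.ext
      rw [AddSubmonoidClass.coe_finsetSum]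
      show Tw = _
      rw [hTw]
      exact Finset.sum_congr rfl fun j _ => (coe_sO313_pow s he.val_s j w₀).symm
    rw [h1, map_sum, ← hwb]
    exact Finset.sum_congr rfl fun j _ => (sBar313_pow_res s he.val_s j w₀).symm
  have hv : Valued.v (Tw - 1) < 1 := by
    have := (res313_eq_iff (⟨Tw, hTw1⟩ : Valued.integer K) 1).1 (by rw [hres, map_one])
    simpa using this
  have hTwv : Valued.v Tw = 1 := by
    have h1 : Tw = 1 + (Tw - 1) := by ring
    rw [h1, Valuation.map_add_eq_of_lt_left _ (by rwa [map_one]), map_one]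
  have hTw0 : Tw ≠ 0 := by
    intro h
    rw [h, map_zero] at hTwv
    exact zero_ne_one hTwv
  have hfix : s Tw = Tw := sum_pow_fixed313 s l hl.pos he.cyc.order _
  refine ⟨(w₀ : K) / Tw, ?_, ?_⟩
  · rw [map_div₀, hTwv, div_one]
    exact w₀.2
  · have h1 : ∀ j ∈ Finset.range l, (s ^ j) ((w₀ : K) / Tw) = (s ^ j) (w₀ : K) / Tw := by
      intro j _
      rw [map_div₀, pow_apply_fixed313 s Tw hfix j]
    rw [Finset.sum_congr rfl h1, ← Finset.sum_div, ← hTw, div_self hTw0]

theorem exists_res_norm313 (hk : IsLocalField k q) (hK : IsLocalField K (q ^ l))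
    (he : IsLocalExt k K l 1 i s) (hl : l.Prime) (t d : k) (ht : Valued.v t ≤ 1)
    (hd : Valued.v d = 1) (ha : s (-(i d)) = -(i d)) (hb : s (i t) = i t) :
    ∃ β : QuadraticAlgebra K (-(i d)) (i t), Valued.v β.re ≤ 1 ∧ Valued.v β.im ≤ 1 ∧
      Valued.v ((nrm313 (⇑(qAut313 s ha hb)) l β - QuadraticAlgebra.omega).re) < 1 ∧
      Valued.v ((nrm313 (⇑(qAut313 s ha hb)) l β - QuadraticAlgebra.omega).im) < 1 := by
  classical
  haveI : Finite (Res313 K) := finite_residue313 hK
  have hi : ∀ x : k, Valued.v (i x) = Valued.v x := fun x => by rw [he.val_i, pow_one]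
  have hσl := sBar313_pow_eq_one s he.val_s l he.cyc.order
  have hσ1 := sBar313_ne_one hk hK he hl
  have haO1 : Valued.v (-(i d)) ≤ 1 := by rw [Valuation.map_neg, hi, hd]
  have hbO1 : Valued.v (i t) ≤ 1 := by rw [hi]; exact ht
  set aO : Valued.integer K := ⟨-(i d), haO1⟩ with haO
  set bO : Valued.integer K := ⟨i t, hbO1⟩ with hbO
  have hsa : sO313 s he.val_s aO = aO := Subtype.ext ha
  have hsb : sO313 s he.val_s bO = bO := Subtype.ext hb
  have hab : sBar313 s he.val_s (res313 K aO) = res313 K aO := by rw [sBar313_res, hsa]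
  have hbb : sBar313 s he.val_s (res313 K bO) = res313 K bO := by rw [sBar313_res, hsb]
  have hab0 : res313 K aO ≠ 0 := by
    rw [Ne, res313_eq_zero_iff]
    show ¬ Valued.v (-(i d)) < 1
    rw [Valuation.map_neg, hi, hd]
    exact lt_irrefl _
  obtain ⟨βb, hβb⟩ := exists_nrm_eq_omega313 (sBar313 s he.val_s) l hl hσl hσ1
    (res313 K aO) (res313 K bO) hab hbb hab0
  obtain ⟨x, hx⟩ := res313_surjective βb.re
  obtain ⟨y, hy⟩ := res313_surjective βb.im
  set βO : QuadraticAlgebra (Valued.integer K) aO bO := ⟨x, y⟩ with hβO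
  set red : QuadraticAlgebra (Valued.integer K) aO bO →+*
      QuadraticAlgebra (Res313 K) (res313 K aO) (res313 K bO) :=
    qMap313 (res313 K) rfl rfl with hred
  set inc : QuadraticAlgebra (Valued.integer K) aO bO →+* QuadraticAlgebra K (-(i d)) (i t) :=
    qMap313 (Valued.integer K).subtype rfl rfl with hinc
  have hredβ : red βO = βb := by
    ext
    · exact hx
    · exact hy
  have hredσ : ∀ z, red (qAut313 (sO313 s he.val_s) hsa hsb z)
      = qAut313 (sBar313 s he.val_s) hab hbb (red z) := by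
    intro z
    ext
    · exact (sBar313_res s he.val_s z.re).symm
    · exact (sBar313_res s he.val_s z.im).symm
  have hincσ : ∀ z, inc (qAut313 (sO313 s he.val_s) hsa hsb z)
      = qAut313 s ha hb (inc z) := by
    intro z
    ext <;> rfl
  set Z := nrm313 (⇑(qAut313 (sO313 s he.val_s) hsa hsb)) l βO with hZ
  have hredZ : red Z = QuadraticAlgebra.omega := by
    rw [hZ, nrm313_map (⇑red) (map_one _) (map_mul _) _ _ hredσ l βO, hredβ, hβb]
  have hincZ : inc Z = nrm313 (⇑(qAut313 s ha hb)) l (inc βO) := by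
    rw [hZ, nrm313_map (⇑inc) (map_one _) (map_mul _) _ _ hincσ l βO]
  refine ⟨inc βO, x.2, y.2, ?_, ?_⟩
  · rw [← hincZ]
    have h1 : res313 K Z.re = 0 :=
      (congrArg QuadraticAlgebra.re hredZ).trans QuadraticAlgebra.omega_re
    have h2 := (res313_eq_zero_iff _).1 h1
    show Valued.v ((Z.re : K) - 0) < 1
    rw [sub_zero]
    exact h2
  · rw [← hincZ]
    have h1 : res313 K Z.im = res313 K 1 := by
      rw [map_one]
      exact (congrArg QuadraticAlgebra.im hredZ).trans QuadraticAlgebra.omega_im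
    have h2 := (res313_eq_iff _ _).1 h1
    show Valued.v ((Z.im : K) - 1) < 1
    exact h2

end

end Fermat.Agent.LT.T6.H313

end
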