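import Mathlib
import Fermat.Agent.LT.T6.Spec
import Fermat.Agent.LT.T6.H159.VanishSpec
import Fermat.Agent.LT.T6.H159.NormSpec
import Fermat.Agent.LT.T6.H313.LocalRes
import Fermat.Agent.LT.T6.H313.Lift

/-!
# Row LT, tower T6, sub-leaf T6.15c3 `QuadUnitNormC` (helper313): PROVED

OFF-MAIN.  `quadUnitNormC313 : Fermat.Agent.LT.T6.H159.QuadUnitNormC` (VERBATIM Prop of
`LT/T6/H159/NormSpec.lean`, helper159@f7e632065, sha256 eef43064d78b62ff).

Proof.  `A = 𝒪[X]/(X² - tX + d)`, `t = tr u`, `d = det u`, `B = A ⊗ 𝒪'`, `σ = 1 ⊗ s`.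
(1) residue level (`QuadRes`): `X = N β̄` in `B/ϖ`, by the four cases of `X² - t̄X + d̄` over the
residue field of `k'` (`FinNorm`: norm and trace of finite fields in automorphism form;
`LocalAut`: the residue automorphism has order exactly `l`); (2) successive approximation
(`Lift`, `LocalLim`): `N (1 + w δ) = 1 + δ + δ² r` for `Tr w = 1`; (3) `X ↦ u`.
-/

set_option autoImplicit false
set_option linter.style.haveILetI false
set_option linter.unusedSectionVars false
set_option linter.unusedVariables false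

open scoped Matrix
open Fermat.Agent.LT.T6

noncomputable section

namespace Fermat.Agent.LT.T6.H313

/-- Cayley--Hamilton for `2 × 2` matrices. -/
theorem cayley_hamilton_two313 {R : Type*} [CommRing R] (U : Matrix (Fin 2) (Fin 2) R) :
    U * U = (-U.det) • (1 : Matrix (Fin 2) (Fin 2) R) + U.trace • U := by
  ext i j
  fin_cases i <;> fin_cases j <;>
    simp [Matrix.mul_apply, Fin.sum_univ_two, Matrix.trace_fin_two, Matrix.det_fin_two] <;> ring

theorem quadUnitNormC313 : Fermat.Agent.LT.T6.H159.QuadUnitNormC := by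
  intro k k' _ _ _ _ q l i s hk hk' he hl u htr hdet
  classical
  haveI : CompleteSpace k' := hk'.complete
  obtain ⟨ϖ, hϖ⟩ := hk'.unif
  have hi : ∀ x : k, Valued.v (i x) = Valued.v x := fun x => by rw [he.val_i, pow_one]
  set t : k := (u : Matrix (Fin 2) (Fin 2) k).trace with ht
  set d : k := (u : Matrix (Fin 2) (Fin 2) k).det with hd
  have ha : s (-(i d)) = -(i d) := by rw [map_neg, he.cyc.fix_i]
  have hb : s (i t) = i t := he.cyc.fix_i t
  have hav : Valued.v (-(i d)) = 1 := by rw [Valuation.map_neg, hi, hdet]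
  have hbv : Valued.v (i t) ≤ 1 := by rw [hi]; exact htr
  obtain ⟨w, hw, hwtr⟩ := exists_trace_one313 hk hk' he hl
  obtain ⟨β₁, h1re, h1im, hres_re, hres_im⟩ :=
    exists_res_norm313 hk hk' he hl t d htr hdet ha hb
  obtain ⟨β, hβ⟩ := exists_nrm_eq_omega_of_approx313 ϖ hϖ hav hbv s he.val_s ha hb l
    he.cyc.order w hw hwtr β₁ h1re h1im hres_re hres_im
  -- the matrix side
  set U : Matrix (Fin 2) (Fin 2) k' :=
    ((Matrix.GeneralLinearGroup.map i u : GL (Fin 2) k') : Matrix (Fin 2) (Fin 2) k') with hU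
  have hUmap : U = (u : Matrix (Fin 2) (Fin 2) k).map i := rfl
  have hUtr : U.trace = i t := by
    rw [hUmap, ht, Matrix.trace_fin_two, Matrix.trace_fin_two, map_add]
    rfl
  have hUdet : U.det = i d := by
    rw [hUmap, hd, Matrix.det_fin_two, Matrix.det_fin_two, map_sub, map_mul, map_mul]
    rfl
  have hUU : U * U = (-(i d)) • (1 : Matrix (Fin 2) (Fin 2) k') + (i t) • U := by
    rw [← hUtr, ← hUdet]
    exact cayley_hamilton_two313 U
  have hUs : U.map s = U := by
    rw [hUmap]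
    ext p r
    simp only [Matrix.map_apply]
    exact he.cyc.fix_i _
  set Ψ : QuadraticAlgebra k' (-(i d)) (i t) →ₐ[k'] Matrix (Fin 2) (Fin 2) k' :=
    QuadraticAlgebra.lift ⟨U, hUU⟩ with hΨ
  have hΨapp : ∀ z, Ψ z = z.re • (1 : Matrix (Fin 2) (Fin 2) k') + z.im • U := fun z => rfl
  have hΨω : Ψ QuadraticAlgebra.omega = U := by
    rw [hΨapp]
    simp
  have hΨσ : ∀ z, Ψ (qAut313 s ha hb z) = (Ψ z).map s := by
    intro z
    rw [hΨapp, hΨapp]
    ext p r
    simp only [qAut313_re, qAut313_im, Matrix.add_apply, Matrix.smul_apply, Matrix.map_apply,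
      smul_eq_mul, map_add, map_mul]
    have h1 : s (U p r) = U p r := by
      have := congrFun (congrFun hUs p) r
      simpa [Matrix.map_apply] using this
    have h2 : s ((1 : Matrix (Fin 2) (Fin 2) k') p r) = (1 : Matrix (Fin 2) (Fin 2) k') p r := by
      by_cases hpr : p = r
      · subst hpr; simp
      · simp [hpr]
    rw [h1, h2]
  -- invertibility of `Ψ β`
  have hUdet0 : U.det ≠ 0 := by
    rw [hUdet]
    intro h
    have : Valued.v (i d) = 0 := by rw [h, map_zero]
    rw [hi, hdet] at this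
    exact one_ne_zero this
  have hl1 : ∃ m, l = m + 1 := ⟨l - 1, by have := hl.pos; omega⟩
  obtain ⟨m, hm⟩ := hl1
  have hdetβ : (Ψ β).det ≠ 0 := by
    intro h0
    have h1 : U = Ψ β * Ψ (qAut313 s ha hb (nrm313 (⇑(qAut313 s ha hb)) m β)) := by
      rw [← hΨω, ← hβ, hm, nrm313_succ, map_mul]
    rw [h1, Matrix.det_mul, h0, zero_mul] at hUdet0
    exact hUdet0 rfl
  set x : GL (Fin 2) k' := Matrix.GeneralLinearGroup.mkOfDetNeZero (Ψ β) hdetβ with hx
  have hxcoe : (x : Matrix (Fin 2) (Fin 2) k') = Ψ β := rfl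
  have hN : ∀ n : ℕ, ((twN (glAut s) n x : GL (Fin 2) k') : Matrix (Fin 2) (Fin 2) k')
      = Ψ (nrm313 (⇑(qAut313 s ha hb)) n β) := by
    intro n
    induction n with
    | zero =>
      show ((1 : GL (Fin 2) k') : Matrix (Fin 2) (Fin 2) k') = Ψ 1
      rw [map_one]
      rfl
    | succ n ih =>
      show ((x * glAut s (twN (glAut s) n x) : GL (Fin 2) k') : Matrix (Fin 2) (Fin 2) k') = _
      rw [nrm313_succ, map_mul, hΨσ, ← ih, Units.val_mul, hxcoe]
      rfl
  refine ⟨x, β.re, β.im, ?_, ?_⟩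
  · rw [hxcoe, hΨapp]
  · apply Units.ext
    show ((twN (glAut s) l x : GL (Fin 2) k') : Matrix (Fin 2) (Fin 2) k') = U
    rw [hN, hβ, hΨω]

end Fermat.Agent.LT.T6.H313

end
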